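/-
helper73: conditional wiring for S17 (Mordell-Weil for J0(N), N prime >= 5).

`s17_of_height` : the frozen S17 conclusion follows from
  (W) weak Mordell-Weil: `2 • J0(N)(Q)` has finite index in `J0(N)(Q)`;
  (H) a height `h` on `J0(N)(Q)` with Northcott, `0 ≤ h`, and the approximate parallelogram law.
`s17_of_descent` : the same with the weaker descent inequalities of `AddCommGroup.fg_of_descent`
  (any multiplier `n`, constants `0 ≤ a < b`).
Both are direct applications of Mathlib's `Mathlib/GroupTheory/Descent.lean`; nothing deep here.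
The two inputs (W) and (H) are NOT available anywhere in the tree (see reports stmt = S17).
-/
import Fermat.Statements.S17
import Mathlib.GroupTheory.Descent

set_option autoImplicit false
open ModularCurve AlgebraicCurve

namespace Fermat.Agent.MW73

/-- `J0(N)(Q)`: the Galois-fixed points of `J0(N)(Qbar)`. -/
abbrev JRat (N : ℕ) [NeZero N] : Type :=
  ↥(FixedPoints.addSubgroup ((AlgebraicClosure ℚ) ≃ₐ[ℚ] (AlgebraicClosure ℚ)) (JZero N))

/-- S17 from weak Mordell-Weil (for `2`) and a quadratic-up-to-bounded-error Northcott height. -/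
theorem s17_of_height (N : ℕ) [NeZero N] (h : JRat N → ℝ) (C : ℝ)
    (hweak : (nsmulAddMonoidHom (α := JRat N) 2).range.FiniteIndex)
    (hnonneg : ∀ x, 0 ≤ h x)
    (hpar : ∀ x y, |h (x + y) + h (x - y) - 2 * (h x + h y)| ≤ C)
    [Northcott h] :
    AddGroup.FG (JRat N) :=
  AddCommGroup.fg_of_descent' hweak hnonneg hpar

/-- S17 from weak Mordell-Weil (for some `n`) and the general descent inequalities. -/
theorem s17_of_descent (N : ℕ) [NeZero N] (n : ℕ) (h : JRat N → ℝ) (a b c₀ : ℝ)
    (c : JRat N → ℝ) (ha : 0 ≤ a) (hab : a < b)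
    (hweak : (nsmulAddMonoidHom (α := JRat N) n).range.FiniteIndex)
    (htrans : ∀ g x, h x ≤ a * h (g + x) + c g)
    (hmul : ∀ x, b * h x - c₀ ≤ h (n • x))
    [Northcott h] :
    AddGroup.FG (JRat N) :=
  AddCommGroup.fg_of_descent ha hab hweak htrans hmul

end Fermat.Agent.MW73
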